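import Mathlib
import Fermat.Agent.MU.S17.Pts.Galois
import Fermat.Agent.S17.Interfaces

section MergeWrap_S17_H_Setup_Cusp -- from S17/H/Setup/Cusp.lean

/-!
# S17 / package H, seat SETUP (helper19): the cusp `∞` as a Galois-fixed place

* generic: for an intermediate field `E` of `LaurentSeries L / L` containing a series with a pole,
  `laurentPlace E hE : Place L E` is the place of the `X`-adic order
  (`mem_laurentPlace_iff : f ∈ O ↔ ∀ n < 0, f.coeff n = 0`);
* `cuspPlace N : Place ℚ̄ (modularFunctionFieldBar N)` and `galPlace_cuspPlace : σ • ∞ = ∞`.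
-/

set_option autoImplicit false

noncomputable section

open AlgebraicCurve ModularCurve WithZero

namespace Fermat.Agent.S17.Setup

section LaurentPlace

variable {L : Type*} [Field L] (E : IntermediateField L (LaurentSeries L))

/-- the valuation subring of `E` of the series without polar part -/
def laurentVS : ValuationSubring E :=
  (Valued.v (R := LaurentSeries L) (Γ₀ := ℤᵐ⁰)).valuationSubring.comap
    (algebraMap E (LaurentSeries L))

theorem mem_laurentVS_iff_val (f : E) :
    f ∈ laurentVS E ↔ Valued.v (f : LaurentSeries L) ≤ (1 : ℤᵐ⁰) := Iff.rfl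

theorem mem_laurentVS_iff (f : E) :
    f ∈ laurentVS E ↔ ∀ n : ℤ, n < 0 → (f : LaurentSeries L).coeff n = 0 := by
  rw [mem_laurentVS_iff_val]
  have h := LaurentSeries.valuation_le_iff_coeff_lt_eq_zero L (D := 0)
    (f := (f : LaurentSeries L))
  rw [neg_zero, exp_zero] at h
  exact h

/-- the depth of a series: `-log v(f)`. -/
def depth (f : E) : ℕ := (-(log (Valued.v (f : LaurentSeries L)))).toNat

theorem val_ne_zero {f : E} (hf : f ≠ 0) : Valued.v (f : LaurentSeries L) ≠ (0 : ℤᵐ⁰) := by
  rw [Ne, Valuation.zero_iff]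
  exact fun h => hf (Subtype.ext h)

theorem val_le_of_depth_le {a b : E} (ha : a ≠ 0) (hb : b ≠ 0) (hb' : b ∈ laurentVS E)
    (hab : depth E a ≤ depth E b) :
    Valued.v (b : LaurentSeries L) ≤ Valued.v (a : LaurentSeries L) := by
  have hb1 : Valued.v (b : LaurentSeries L) ≤ (1 : ℤᵐ⁰) := hb'
  have hlb : log (Valued.v (b : LaurentSeries L)) ≤ 0 := by
    rw [← log_one (M := ℤ)]
    exact (log_le_log (val_ne_zero E hb) one_ne_zero).mpr hb1
  rw [← log_le_log (val_ne_zero E hb) (val_ne_zero E ha)]
  unfold depth at hab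
  have h1 : (-(log (Valued.v (b : LaurentSeries L)))).toNat
      = -(log (Valued.v (b : LaurentSeries L))) := Int.toNat_of_nonneg (by omega)
  have h2 : -(log (Valued.v (a : LaurentSeries L)))
      ≤ (-(log (Valued.v (a : LaurentSeries L)))).toNat := Int.self_le_toNat _
  have h3 : ((-(log (Valued.v (a : LaurentSeries L)))).toNat : ℤ)
      ≤ (-(log (Valued.v (b : LaurentSeries L)))).toNat := by exact_mod_cast hab
  omega

theorem isPrincipalIdealRing_laurentVS : IsPrincipalIdealRing (laurentVS E) := by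
  classical
  constructor
  intro I
  by_cases hI : I = ⊥
  · subst hI
    exact bot_isPrincipal
  have hex : ∃ n : ℕ, ∃ a : laurentVS E, a ∈ I ∧ a ≠ 0 ∧ depth E (a : E) = n := by
    obtain ⟨a, haI, ha0⟩ := Submodule.exists_mem_ne_zero_of_ne_bot hI
    exact ⟨_, a, haI, ha0, rfl⟩
  obtain ⟨a, haI, ha0, han⟩ := Nat.find_spec hex
  have ha0' : (a : E) ≠ 0 := fun h => ha0 (Subtype.ext h)
  refine ⟨a, ?_⟩
  apply le_antisymm
  · intro b hbI
    rcases eq_or_ne b 0 with rfl | hb0
    · exact zero_mem _
    have hb0' : (b : E) ≠ 0 := fun h => hb0 (Subtype.ext h)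
    have hmin : depth E (a : E) ≤ depth E (b : E) := by
      rw [han]
      exact Nat.find_min' hex ⟨b, hbI, hb0, rfl⟩
    have hle := val_le_of_depth_le E ha0' hb0' b.2 hmin
    have hq : (b : E) / (a : E) ∈ laurentVS E := by
      rw [mem_laurentVS_iff_val]
      have : (((b : E) / (a : E) : E) : LaurentSeries L)
          = (b : E) / ((a : E) : LaurentSeries L) := by push_cast; rfl
      rw [this, map_div₀]
      exact div_le_one_of_le₀ hle zero_le
    rw [Submodule.mem_span_singleton]
    refine ⟨⟨(b : E) / (a : E), hq⟩, ?_⟩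
    apply Subtype.ext
    show (b : E) / (a : E) * (a : E) = (b : E)
    exact div_mul_cancel₀ _ ha0'
  · rw [Submodule.span_singleton_le_iff_mem]
    exact haI

theorem coeff_algebraMap_of_ne (a : L) {n : ℤ} (hn : n ≠ 0) :
    ((algebraMap L E a : E) : LaurentSeries L).coeff n = 0 := by
  show (algebraMap L (LaurentSeries L) a).coeff n = 0
  rw [algebraMap_laurentSeries_eq_single]
  exact HahnSeries.coeff_single_of_ne hn

/-- **the place of the `X`-adic order** on an intermediate field of `L((X)) / L` containing a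
series with a pole. -/
def laurentPlace (hE : ∃ f : E, ∃ n : ℤ, n < 0 ∧ (f : LaurentSeries L).coeff n ≠ 0) :
    Place L E where
  toValuationSubring := laurentVS E
  algebraMap_mem' := fun a =>
    (mem_laurentVS_iff E _).mpr fun n hn => coeff_algebraMap_of_ne E a hn.ne
  ne_top' := by
    obtain ⟨f, n, hn, hf⟩ := hE
    intro htop
    have hmem : f ∈ laurentVS E := by
      rw [htop]
      exact ValuationSubring.mem_top f
    exact hf ((mem_laurentVS_iff E f).mp hmem n hn)
  isPrincipalIdealRing' := isPrincipalIdealRing_laurentVS E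

theorem mem_laurentPlace_iff
    (hE : ∃ f : E, ∃ n : ℤ, n < 0 ∧ (f : LaurentSeries L).coeff n ≠ 0) (f : E) :
    f ∈ (laurentPlace E hE).toValuationSubring ↔
      ∀ n : ℤ, n < 0 → (f : LaurentSeries L).coeff n = 0 :=
  mem_laurentVS_iff E f

end LaurentPlace

section Galois

variable (F₀ : IntermediateField ℚ (LaurentSeries ℚ))

local notation "Qb" => AlgebraicClosure ℚ

theorem smul_mem_laurentVS_iff (σ : GQ) (f : laurentBaseChange Qb F₀) :
    arithmeticGalois F₀ σ • f ∈ laurentVS (laurentBaseChange Qb F₀) ↔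
      f ∈ laurentVS (laurentBaseChange Qb F₀) := by
  rw [mem_laurentVS_iff, mem_laurentVS_iff]
  constructor
  · intro h n hn
    have h1 := h n hn
    rw [coe_arithmeticGalois_smul, coeffMap_coeff] at h1
    exact (map_eq_zero_iff (σ : Qb →+* Qb) σ.injective).mp h1
  · intro h n hn
    rw [coe_arithmeticGalois_smul, coeffMap_coeff, h n hn, map_zero]

/-- the place of the `q`-adic order is Galois-fixed. -/
theorem smul_laurentPlace
    (hE : ∃ f : laurentBaseChange Qb F₀, ∃ n : ℤ, n < 0 ∧ (f : LaurentSeries Qb).coeff n ≠ 0)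
    (σ : GQ) :
    arithmeticGalois F₀ σ • laurentPlace (laurentBaseChange Qb F₀) hE
      = laurentPlace (laurentBaseChange Qb F₀) hE := by
  apply Place.ext
  rw [SemilinearAut.smul_toValuationSubring]
  ext f
  rw [ValuationSubring.mem_pointwise_smul_iff_inv_smul_mem]
  show (arithmeticGalois F₀ σ)⁻¹ • f ∈ laurentVS _ ↔ f ∈ laurentVS _
  rw [← map_inv]
  exact smul_mem_laurentVS_iff F₀ σ⁻¹ f

end Galois

section Modular

local notation "Qb" => AlgebraicClosure ℚ

variable (N : ℕ)

/-- `j` as an element of the function field of `X₀(N)` over `ℚ̄`. -/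
def jElt : modularFunctionFieldBar N :=
  ⟨coeffEmb Qb jq, coeffEmb_mem_laurentBaseChange Qb (by
    have h := jqd_mem_full N (one_dvd N)
    rwa [qExpand_one_apply] at h)⟩

theorem coe_jElt : ((jElt N : modularFunctionFieldBar N) : LaurentSeries Qb) = coeffEmb Qb jq :=
  rfl

theorem exists_pole : ∃ f : modularFunctionFieldBar N, ∃ n : ℤ, n < 0 ∧
    (f : LaurentSeries Qb).coeff n ≠ 0 := by
  refine ⟨jElt N, -1, by norm_num, ?_⟩
  rw [coe_jElt, coeffEmb_coeff, coeff_jq_neg_one, map_one]
  exact one_ne_zero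

/-- **the cusp `∞`** of `X₀(N)`: the place of the `q`-adic order. -/
def cuspPlace : Place Qb (modularFunctionFieldBar N) :=
  laurentPlace (modularFunctionFieldBar N) (exists_pole N)

theorem mem_cuspPlace_iff (f : modularFunctionFieldBar N) :
    f ∈ (cuspPlace N).toValuationSubring ↔
      ∀ n : ℤ, n < 0 → (f : LaurentSeries Qb).coeff n = 0 :=
  mem_laurentVS_iff _ f

/-- the cusp `∞` is Galois-fixed. -/
theorem galPlace_cuspPlace (σ : GQ) : Pts.galPlace N σ (cuspPlace N) = cuspPlace N :=
  smul_laurentPlace (modularFunctionFieldFull N) (exists_pole N) σ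

end Modular

end Fermat.Agent.S17.Setup
end
end MergeWrap_S17_H_Setup_Cusp
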